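import Mathlib

set_option autoImplicit false
set_option linter.style.haveILetI false

namespace Fermat.Agent.TW
open IsLocalRing

/-- If `R` is a complete Noetherian local `𝒪`-algebra with the same residue field, whose maximal
ideal is generated by `x₁, …, x_r` and the maximal ideal of `𝒪`, then `R` is a quotient of
`𝒪⟦X₁, …, X_r⟧`. -/
theorem exists_mvPowerSeries_surjective {𝒪 R : Type*} [CommRing 𝒪] [IsLocalRing 𝒪]
    [IsAdicComplete (maximalIdeal 𝒪) 𝒪] [CommRing R] [IsLocalRing R] [IsNoetherianRing R]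
    [IsAdicComplete (maximalIdeal R) R] [Algebra 𝒪 R] [IsLocalHom (algebraMap 𝒪 R)]
    (hres : Function.Surjective (residue R ∘ algebraMap 𝒪 R)) {r : ℕ} (x : Fin r → R)
    (hx : ∀ i, x i ∈ maximalIdeal R)
    (hspan : maximalIdeal R ≤ Ideal.span (Set.range x) ⊔ (maximalIdeal 𝒪).map (algebraMap 𝒪 R)) :
    ∃ γ : MvPowerSeries (Fin r) 𝒪 →ₐ[𝒪] R, Function.Surjective γ := by
  classical
  letI iR : WithIdeal R := ⟨maximalIdeal R⟩
  letI i𝒪 : WithIdeal 𝒪 := ⟨maximalIdeal 𝒪⟩
  have hadR : IsAdic (maximalIdeal R) := rfl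
  have hcR : CompleteSpace R ∧ T2Space R := (IsAdic.isAdicComplete_iff hadR).mp ‹_›
  haveI := hcR.1
  haveI := hcR.2
  have hmap : (maximalIdeal 𝒪).map (algebraMap 𝒪 R) ≤ maximalIdeal R :=
    ((IsLocalRing.local_hom_TFAE (algebraMap 𝒪 R)).out 0 2).mp ‹_›
  have hcont : Continuous (algebraMap 𝒪 R) :=
    (WithIdeal.uniformContinuous_of_map_le (S := R) (f := algebraMap 𝒪 R) hmap).continuous
  haveI : ContinuousSMul 𝒪 R := continuousSMul_of_algebraMap 𝒪 R hcont
  have hev : MvPowerSeries.HasEval x :=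
    { hpow := fun i => WithIdeal.isTopologicallyNilpotent_of_mem (hx i)
      tendsto_zero := by
        simp }
  refine ⟨MvPowerSeries.aeval hev, ?_⟩
  have hγX : ∀ i, MvPowerSeries.aeval hev (MvPowerSeries.X i : MvPowerSeries (Fin r) 𝒪) = x i := by
    intro i
    rw [MvPowerSeries.coe_aeval, MvPowerSeries.eval₂_X]
  set γ := MvPowerSeries.aeval (R := 𝒪) hev with hγ
  -- reduce modulo (X)
  have hmapX : (Ideal.span (Set.range (MvPowerSeries.X (R := 𝒪) (σ := Fin r)))).map
      (γ : MvPowerSeries (Fin r) 𝒪 →+* R) = Ideal.span (Set.range x) := by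
    rw [Ideal.map_span, ← Set.range_comp]
    congr 1
    ext y
    simp [hγX]
  have hxle : Ideal.span (Set.range x) ≤ maximalIdeal R := by
    rw [Ideal.span_le]
    rintro _ ⟨i, rfl⟩
    exact hx i
  haveI h1 : IsHausdorff (Ideal.span (Set.range x)) R := by
    have : IsHausdorff (maximalIdeal R) R := inferInstance
    refine ⟨fun y hy => this.haus y fun n => (hy n).mono ?_⟩
    exact Submodule.smul_mono_left (Ideal.pow_right_mono hxle n)
  haveI h1' : IsHausdorff ((Ideal.span (Set.range (MvPowerSeries.X (R := 𝒪) (σ := Fin r)))).map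
      (γ : MvPowerSeries (Fin r) 𝒪 →+* R)) R := by rw [hmapX]; exact h1
  suffices h : Function.Surjective ((Ideal.Quotient.mk (Ideal.span (Set.range x))).comp
      (algebraMap 𝒪 R)) by
    apply surjective_of_mk_map_comp_surjective (γ : MvPowerSeries (Fin r) 𝒪 →+* R)
      (I := Ideal.span (Set.range (MvPowerSeries.X (R := 𝒪) (σ := Fin r))))
    intro y
    obtain ⟨y, rfl⟩ := Ideal.Quotient.mk_surjective y
    obtain ⟨a, ha⟩ := h (Ideal.Quotient.mk _ y)
    refine ⟨algebraMap 𝒪 _ a, ?_⟩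
    simp only [RingHom.coe_comp, RingHom.coe_coe, Function.comp_apply, AlgHom.commutes]
    simp only [RingHom.coe_comp, Function.comp_apply] at ha
    rw [Ideal.Quotient.eq] at ha ⊢
    rw [hmapX]; exact ha
  -- now `𝒪 → R/(x)` is surjective
  have hle : ((maximalIdeal 𝒪).map ((Ideal.Quotient.mk (Ideal.span (Set.range x))).comp
      (algebraMap 𝒪 R))) = (maximalIdeal R).map (Ideal.Quotient.mk (Ideal.span (Set.range x))) := by
    rw [← Ideal.map_map]
    apply le_antisymm
    · exact Ideal.map_mono hmap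
    · refine (Ideal.map_mono hspan).trans ?_
      rw [Ideal.map_sup]
      simp [Ideal.map_quotient_self]
  have hx1 : Ideal.span (Set.range x) ≠ ⊤ := fun h =>
    (maximalIdeal.isMaximal R).ne_top (top_le_iff.mp (h ▸ hxle))
  haveI : Nontrivial (R ⧸ Ideal.span (Set.range x)) := Ideal.Quotient.nontrivial_iff.mpr hx1
  haveI : IsLocalRing (R ⧸ Ideal.span (Set.range x)) :=
    IsLocalRing.of_surjective' (Ideal.Quotient.mk _) Ideal.Quotient.mk_surjective
  haveI h2 : IsHausdorff ((maximalIdeal 𝒪).map ((Ideal.Quotient.mk (Ideal.span (Set.range x))).comp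
      (algebraMap 𝒪 R))) (R ⧸ Ideal.span (Set.range x)) := by
    rw [hle]
    have : (maximalIdeal R).map (Ideal.Quotient.mk (Ideal.span (Set.range x))) =
        maximalIdeal (R ⧸ Ideal.span (Set.range x)) := by
      apply IsLocalRing.map_maximalIdeal_of_surjective
      exact Ideal.Quotient.mk_surjective
    rw [this]
    infer_instance
  apply surjective_of_mk_map_comp_surjective ((Ideal.Quotient.mk (Ideal.span (Set.range x))).comp
      (algebraMap 𝒪 R)) (I := maximalIdeal 𝒪)
  intro y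
  obtain ⟨y, rfl⟩ := Ideal.Quotient.mk_surjective y
  obtain ⟨y, rfl⟩ := Ideal.Quotient.mk_surjective y
  obtain ⟨a, ha⟩ := hres (residue R y)
  refine ⟨a, ?_⟩
  simp only [RingHom.coe_comp, Function.comp_apply]
  rw [Ideal.Quotient.eq, hle]
  rw [← map_sub]
  apply Ideal.mem_map_of_mem
  rw [← IsLocalRing.residue_eq_zero_iff, map_sub, sub_eq_zero]
  exact ha

/-- Nakayama version of `exists_mvPowerSeries_surjective`. -/
theorem exists_mvPowerSeries_surjective_of_le_sup_sq {𝒪 R : Type*} [CommRing 𝒪] [IsLocalRing 𝒪]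
    [IsAdicComplete (maximalIdeal 𝒪) 𝒪] [CommRing R] [IsLocalRing R] [IsNoetherianRing R]
    [IsAdicComplete (maximalIdeal R) R] [Algebra 𝒪 R] [IsLocalHom (algebraMap 𝒪 R)]
    (hres : Function.Surjective (residue R ∘ algebraMap 𝒪 R)) {r : ℕ} (x : Fin r → R)
    (hx : ∀ i, x i ∈ maximalIdeal R)
    (hspan : maximalIdeal R ≤ (Ideal.span (Set.range x) ⊔ (maximalIdeal 𝒪).map (algebraMap 𝒪 R)) ⊔
      maximalIdeal R ^ 2) :
    ∃ γ : MvPowerSeries (Fin r) 𝒪 →ₐ[𝒪] R, Function.Surjective γ := by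
  refine exists_mvPowerSeries_surjective hres x hx ?_
  refine Submodule.le_of_le_smul_of_le_jacobson_bot (I := maximalIdeal R)
    (IsNoetherian.noetherian _) (IsLocalRing.maximalIdeal_le_jacobson _) ?_
  rwa [smul_eq_mul, ← pow_two]

/-- Cotangent space version: if the relative cotangent space has dimension at most `r`, then `R`
is a quotient of `𝒪⟦X₁, …, X_r⟧`. -/
theorem exists_mvPowerSeries_surjective_of_finrank_le {𝒪 R : Type*} [CommRing 𝒪] [IsLocalRing 𝒪]
    [IsAdicComplete (maximalIdeal 𝒪) 𝒪] [CommRing R] [IsLocalRing R] [IsNoetherianRing R]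
    [IsAdicComplete (maximalIdeal R) R] [Algebra 𝒪 R] [IsLocalHom (algebraMap 𝒪 R)]
    (hres : Function.Surjective (residue R ∘ algebraMap 𝒪 R)) {r : ℕ}
    [IsLocalRing (R ⧸ (maximalIdeal 𝒪).map (algebraMap 𝒪 R))]
    (hr : Module.finrank (ResidueField (R ⧸ (maximalIdeal 𝒪).map (algebraMap 𝒪 R)))
      (CotangentSpace (R ⧸ (maximalIdeal 𝒪).map (algebraMap 𝒪 R))) ≤ r) :
    ∃ γ : MvPowerSeries (Fin r) 𝒪 →ₐ[𝒪] R, Function.Surjective γ := by
  classical
  set R' := R ⧸ (maximalIdeal 𝒪).map (algebraMap 𝒪 R) with hR'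
  obtain ⟨v, hv⟩ : ∃ v : Fin r → CotangentSpace R',
      Submodule.span (ResidueField R') (Set.range v) = ⊤ := by
    let b := Module.finBasis (ResidueField R') (CotangentSpace R')
    refine ⟨fun i => if h : (i : ℕ) < Module.finrank (ResidueField R') (CotangentSpace R') then
      b ⟨i, h⟩ else 0, ?_⟩
    rw [eq_top_iff, ← b.span_eq]
    apply Submodule.span_mono
    rintro _ ⟨i, rfl⟩
    refine ⟨⟨i, lt_of_lt_of_le i.2 hr⟩, ?_⟩
    simp
  have hsur : Function.Surjective (maximalIdeal R').toCotangent := Ideal.toCotangent_surjective _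
  choose w hw using fun i => hsur (v i)
  choose x hx using fun i => Ideal.Quotient.mk_surjective ((w i : R'))
  have hmax : (maximalIdeal R').comap (Ideal.Quotient.mk _) = maximalIdeal R := by
    apply IsLocalRing.eq_maximalIdeal
    exact Ideal.comap_isMaximal_of_surjective _ Ideal.Quotient.mk_surjective
  refine exists_mvPowerSeries_surjective_of_le_sup_sq hres x ?_ ?_
  · intro i
    rw [← hmax, Ideal.mem_comap, hx]
    exact (w i).2
  · have hw' : Submodule.span R' (Set.range w) = ⊤ := by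
      rw [← CotangentSpace.span_image_eq_top_iff, ← Set.range_comp, ← hv]
      congr 2
      ext i
      exact hw i
    refine le_sup_of_le_left ?_
    intro y hy
    have hy' : Ideal.Quotient.mk ((maximalIdeal 𝒪).map (algebraMap 𝒪 R)) y ∈ maximalIdeal R' := by
      rw [← hmax] at hy
      exact hy
    have h1 : (⟨_, hy'⟩ : maximalIdeal R') ∈ Submodule.span R' (Set.range w) := hw' ▸ trivial
    obtain ⟨c, hc⟩ := (Submodule.mem_span_range_iff_exists_fun R').mp h1
    choose d hd using fun i => Ideal.Quotient.mk_surjective (c i)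
    have h2 : y - ∑ i, d i * x i ∈ (maximalIdeal 𝒪).map (algebraMap 𝒪 R) := by
      rw [← Ideal.Quotient.eq, map_sum]
      have h3 := congrArg (Subtype.val) hc
      simp only [AddSubmonoidClass.coe_finset_sum, SetLike.val_smul, smul_eq_mul] at h3
      rw [← h3]
      refine Finset.sum_congr rfl fun i _ => ?_
      rw [map_mul, hd, hx]
    rw [show y = ∑ i, d i * x i + (y - ∑ i, d i * x i) by ring]
    refine Submodule.add_mem_sup ?_ h2
    exact Ideal.sum_mem _ fun i _ => Ideal.mul_mem_left _ _ (Ideal.subset_span ⟨i, rfl⟩)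

end Fermat.Agent.TW
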